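import Fermat.Agent.Ribet.H704.WildSpec
import Fermat.Agent.Ribet.H644.SmoothDiv

/-!
# RIBET row 38, WALL-p, (S4) CORE-OUT, WILD half: leaf SMOOTH-PURE  (helper520)

`smoothPure : H704.CoreOut.SmoothPureStatement`, VERBATIM the leaf frozen in
`Ribet/H704/WildSpec.lean`.

Proof.  The closed point `n ∋ w` lies on exactly one component `p` (`p₁ p₂ ⊆ (w) ⊆ n`).
`B_p` is a discrete valuation ring with uniformiser `w` (`A2.H609.exists_unitAt_decomp`), so
`u := G · w ^ a` is a unit at `p` for some `a : ℤ`; `u` is still horizontally `m`-divisible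
(`w` is a unit of every valuation ring containing `B[1/w]`).
* If `n = p`, `u` is a unit at `n` and `d = 1` works.
* Otherwise `H644.exists_pureAt_smooth_of_unitAt` gives `d` with `u · d ^ m ∈ (B_n)ˣ`.
-/

set_option autoImplicit false

namespace Fermat.Agent.Ribet.H520

open Fermat.Agent.A2 Fermat.Agent.A2.Alg Fermat.Agent.A2.Alg.H609 Fermat.Agent.A2.H609

section Core

variable {B : Type*} [CommRing B] [IsDomain B] [IsNoetherianRing B] [IsIntegrallyClosed B]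
variable {F : Type*} [Field F] [Algebra B F] [IsFractionRing B F]

/-- **Purity at a smooth point, with the power of `w`**: `n` a closed point on the component `p`
and not on the component `p'`; `G ∈ Fˣ` horizontally `m`-divisible.  Then
`G · w ^ a · d ^ m ∈ (B_n)ˣ` for some `a : ℤ`, `d ∈ Fˣ`. -/
theorem exists_unitAt_smooth520 {w : B} {m : ℕ} (hm : m ≠ 0)
    (p p' n : Ideal B) [p.IsPrime] [p'.IsPrime] [n.IsPrime]
    [IsDedekindDomain (B ⧸ p)]
    (hinf : p ⊓ p' = Ideal.span {w}) (h₁₂ : ¬ p ≤ p') (h₂₁ : ¬ p' ≤ p)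
    (h₁ : p ≤ n) (h₂ : ¬ p' ≤ n)
    (G : F) (hG : G ≠ 0)
    (hdiv : ∀ V : ValuationSubring F, IsDiscreteValuationRing V →
      (∀ b : B, algebraMap B F b ∈ V) → (algebraMap B F w)⁻¹ ∈ V →
      ∃ h u₀ : F, u₀ ∈ V ∧ u₀⁻¹ ∈ V ∧ G = u₀ * h ^ m) :
    ∃ (d : F) (a : ℤ), d ≠ 0 ∧ UnitAt n (G * (algebraMap B F w) ^ a * d ^ m) := by
  have hinj : Function.Injective (algebraMap B F) := IsFractionRing.injective B F
  have hw0 : w ≠ 0 := ne_zero_of_inf_eq_span p p' hinf h₁₂ h₂₁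
  have hwF : algebraMap B F w ≠ 0 := fun h0 => hw0 (hinj (by rw [h0, map_zero]))
  have hinf' : p' ⊓ p = Ideal.span {w} := by rw [inf_comm]; exact hinf
  obtain ⟨k₁, k₂, e, he, hek⟩ := exists_unitAt_decomp (F := F) p' p hinf' h₂₁ G hG
  -- `u = G * w ^ (k₂ - k₁)` is a unit at `p`
  have hue : G * (algebraMap B F w) ^ ((k₂ : ℤ) - (k₁ : ℤ)) = e := by
    rw [zpow_sub₀ hwF, zpow_natCast, zpow_natCast, ← mul_div_assoc, hek]
    field_simp
  set u : F := G * (algebraMap B F w) ^ ((k₂ : ℤ) - (k₁ : ℤ)) with hudef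
  have hup : UnitAt p u := by rw [hue]; exact he
  -- horizontal divisibility of `u`
  have hdivu : ∀ V : ValuationSubring F, IsDiscreteValuationRing V →
      (∀ b : B, algebraMap B F b ∈ V) → (algebraMap B F w)⁻¹ ∈ V →
      ∃ h u₀ : F, u₀ ∈ V ∧ u₀⁻¹ ∈ V ∧ u = u₀ * h ^ m := by
    intro V hV hB hwinv
    obtain ⟨h, u₀, hu₀, hu₀', hGh⟩ := hdiv V hV hB hwinv
    have hwV : algebraMap B F w ∈ V := hB w
    have hz : ∀ j : ℤ, (algebraMap B F w) ^ j ∈ V := by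
      intro j
      rcases Int.eq_nat_or_neg j with ⟨k, rfl | rfl⟩
      · rw [zpow_natCast]; exact pow_mem hwV k
      · rw [zpow_neg, zpow_natCast, ← inv_pow]; exact pow_mem hwinv k
    refine ⟨h, u₀ * (algebraMap B F w) ^ ((k₂ : ℤ) - (k₁ : ℤ)), V.mul_mem _ _ hu₀ (hz _), ?_, ?_⟩
    · rw [mul_inv, ← zpow_neg]
      exact V.mul_mem _ _ hu₀' (hz _)
    · rw [hudef, hGh]; ring
  by_cases hne : p = n
  · refine ⟨1, (k₂ : ℤ) - (k₁ : ℤ), one_ne_zero, ?_⟩
    rw [one_pow, mul_one, ← hne]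
    exact hup
  · obtain ⟨d, hd, hdn, -, -⟩ :=
      Fermat.Agent.Ribet.H644.exists_pureAt_smooth_of_unitAt (B := B) (F := F) hm p p' n
        hinf h₁₂ h₂₁ h₁ hne h₂ u hdivu hup
    exact ⟨d, (k₂ : ℤ) - (k₁ : ℤ), hd, hdn⟩

end Core

open Fermat.Agent.Ribet.H704 Fermat.Agent.Ribet.H704.CoreOut

/-- **Leaf SMOOTH-PURE**, VERBATIM (`H704.CoreOut.SmoothPureStatement`). -/
theorem smoothPure : SmoothPureStatement := by
  intro R E F _ _ _ _ _ _ _ _ _ _ _ w x B c hB m hm G hG hdiv n hn hwn h1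
  obtain ⟨hnoeth, hic, hfrac⟩ := H34.chart_instances' w x B hB
  have hnp : n.IsPrime := hn.isPrime
  have hp₁ : c.p₁.IsPrime := c.prime₁
  have hp₂ : c.p₂.IsPrime := c.prime₂
  have hn₁ : IsIntegrallyClosed (B ⧸ c.p₁) := c.normal₁
  have hn₂ : IsIntegrallyClosed (B ⧸ c.p₂) := c.normal₂
  have hw : algebraMap R B w ∈ c.p₁ ⊓ c.p₂ := by
    rw [c.inf_eq]
    exact Ideal.mem_span_singleton_self _
  have hd₁ : IsDedekindDomain (B ⧸ c.p₁) := isDedekindDomain_quotient_chart w x B hB c.p₁ hw.1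
  have hd₂ : IsDedekindDomain (B ⧸ c.p₂) := isDedekindDomain_quotient_chart w x B hB c.p₂ hw.2
  have hor : c.p₁ ≤ n ∨ c.p₂ ≤ n := by
    have hle : c.p₁ * c.p₂ ≤ n := by
      refine le_trans Ideal.mul_le_inf ?_
      rw [c.inf_eq, Ideal.span_le, Set.singleton_subset_iff]
      exact hwn
    exact (Ideal.IsPrime.mul_le hnp).1 hle
  rcases hor with h | h
  · have h2 : ¬ c.p₂ ≤ n := fun h' => h1 ⟨h, h'⟩
    obtain ⟨d, a, hd, hu⟩ := exists_unitAt_smooth520 (B := B) (F := F) hm c.p₁ c.p₂ n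
      c.inf_eq c.not_le₁₂ c.not_le₂₁ h h2 G hG hdiv
    exact ⟨d, a, hd, hu⟩
  · have h2 : ¬ c.p₁ ≤ n := fun h' => h1 ⟨h', h⟩
    have hinf : c.p₂ ⊓ c.p₁ = Ideal.span {algebraMap R B w} := by
      rw [inf_comm]
      exact c.inf_eq
    obtain ⟨d, a, hd, hu⟩ := exists_unitAt_smooth520 (B := B) (F := F) hm c.p₂ c.p₁ n
      hinf c.not_le₂₁ c.not_le₁₂ h h2 G hG hdiv
    exact ⟨d, a, hd, hu⟩

end Fermat.Agent.Ribet.H520
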